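import Mathlib
import Fermat.Prelude.Def_FLTPrelim_Modularity
import Fermat.Agent.S05.H98.VarChangePoint

/-!
# S52, package E5-bridge: passing to the short Weierstrass form

For a Weierstrass curve `W` over a field in which `6` is invertible, the admissible change of
variables `shortVC W` (with `u = 1/6`, `r = -b₂/12`, `s = -a₁/2`, `t = -(a₃ + r a₁)/2`) takes `W`
to the short form `shortForm W : y² = x³ - 27 c₄ x - 54 c₆`.  Hence both curves have the same
number of points, and for an integral model `W` and a prime `ℓ ≥ 5` the trace of Frobenius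
`W.apOfModel ℓ` can be computed on the short form of the reduction.
-/

set_option autoImplicit false

namespace Fermat.Agent.S52.H98

open WeierstrassCurve

/-- The short Weierstrass form `y² = x³ - 27 c₄ x - 54 c₆` attached to `W`. -/
def shortForm {R : Type*} [CommRing R] (W : WeierstrassCurve R) : WeierstrassCurve R :=
  ⟨0, 0, 0, -27 * W.c₄, -54 * W.c₆⟩

@[simp] lemma shortForm_a₁ {R : Type*} [CommRing R] (W : WeierstrassCurve R) :
    (shortForm W).a₁ = 0 := rfl
@[simp] lemma shortForm_a₂ {R : Type*} [CommRing R] (W : WeierstrassCurve R) :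
    (shortForm W).a₂ = 0 := rfl
@[simp] lemma shortForm_a₃ {R : Type*} [CommRing R] (W : WeierstrassCurve R) :
    (shortForm W).a₃ = 0 := rfl
@[simp] lemma shortForm_a₄ {R : Type*} [CommRing R] (W : WeierstrassCurve R) :
    (shortForm W).a₄ = -27 * W.c₄ := rfl
@[simp] lemma shortForm_a₆ {R : Type*} [CommRing R] (W : WeierstrassCurve R) :
    (shortForm W).a₆ = -54 * W.c₆ := rfl

/-- The short form commutes with base change. -/
lemma shortForm_map {R S : Type*} [CommRing R] [CommRing S] (W : WeierstrassCurve R)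
    (φ : R →+* S) : shortForm (W.map φ) = (shortForm W).map φ := by
  ext
  · simp [shortForm]
  · simp [shortForm]
  · simp [shortForm]
  · simp only [shortForm, WeierstrassCurve.map_a₄, WeierstrassCurve.map_c₄, map_mul, map_neg,
      map_ofNat]
  · simp only [shortForm, WeierstrassCurve.map_a₆, WeierstrassCurve.map_c₆, map_mul, map_neg,
      map_ofNat]

/-- The discriminant of the short form is `6¹² Δ`. -/
lemma shortForm_Δ {R : Type*} [CommRing R] (W : WeierstrassCurve R) :
    (shortForm W).Δ = 6 ^ 12 * W.Δ := by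
  simp only [shortForm, WeierstrassCurve.Δ, WeierstrassCurve.b₂, WeierstrassCurve.b₄,
    WeierstrassCurve.b₆, WeierstrassCurve.b₈, WeierstrassCurve.c₄, WeierstrassCurve.c₆]
  ring

/-- The invariant `c₄` of the short form is `6⁴ c₄`. -/
lemma shortForm_c₄ {R : Type*} [CommRing R] (W : WeierstrassCurve R) :
    (shortForm W).c₄ = 6 ^ 4 * W.c₄ := by
  simp only [shortForm, WeierstrassCurve.b₂, WeierstrassCurve.b₄, WeierstrassCurve.c₄]
  ring

/-- The invariant `c₆` of the short form is `6⁶ c₆`. -/
lemma shortForm_c₆ {R : Type*} [CommRing R] (W : WeierstrassCurve R) :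
    (shortForm W).c₆ = 6 ^ 6 * W.c₆ := by
  simp only [shortForm, WeierstrassCurve.b₂, WeierstrassCurve.b₄, WeierstrassCurve.b₆,
    WeierstrassCurve.c₆]
  ring

variable {F : Type*} [Field F]

/-- The change of variables taking `W` to its short form (`6` invertible). -/
def shortVC (W : WeierstrassCurve F) (h6 : (6 : F) ≠ 0) : VariableChange F :=
  ⟨(Units.mk0 6 h6)⁻¹, -W.b₂ / 12, -W.a₁ / 2, -(W.a₃ + -W.b₂ / 12 * W.a₁) / 2⟩

lemma shortVC_smul (W : WeierstrassCurve F) (h6 : (6 : F) ≠ 0) :
    shortVC W h6 • W = shortForm W := by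
  have h2 : (2 : F) ≠ 0 := fun h => h6 (by linear_combination 3 * h)
  have h3 : (3 : F) ≠ 0 := fun h => h6 (by linear_combination 2 * h)
  have h12 : (12 : F) ≠ 0 := by
    have : (12 : F) = 2 * 6 := by norm_num
    rw [this]; exact mul_ne_zero h2 h6
  ext
  · simp only [shortVC, WeierstrassCurve.variableChange_a₁, inv_inv,
      Units.val_mk0, shortForm]
    field_simp
    ring
  · simp only [shortVC, WeierstrassCurve.variableChange_a₂, inv_inv,
      Units.val_mk0, shortForm, WeierstrassCurve.b₂]
    field_simp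
    ring
  · simp only [shortVC, WeierstrassCurve.variableChange_a₃, inv_inv,
      Units.val_mk0, shortForm, WeierstrassCurve.b₂]
    field_simp
    ring
  · simp only [shortVC, WeierstrassCurve.variableChange_a₄, inv_inv,
      Units.val_mk0, shortForm, WeierstrassCurve.b₂, WeierstrassCurve.b₄, WeierstrassCurve.c₄]
    field_simp
    ring
  · simp only [shortVC, WeierstrassCurve.variableChange_a₆, inv_inv,
      Units.val_mk0, shortForm, WeierstrassCurve.b₂, WeierstrassCurve.b₄, WeierstrassCurve.b₆,
      WeierstrassCurve.c₆]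
    field_simp
    ring

/-- The group isomorphism between the points of `W` and the points of its short form. -/
noncomputable def shortPointEquiv [DecidableEq F] (W : WeierstrassCurve F) (h6 : (6 : F) ≠ 0) :
    W.toAffine.Point ≃+ (shortForm W).toAffine.Point :=
  Fermat.Agent.S05.H98.pointEquivOfEq (shortVC W h6) W (shortForm W) (shortVC_smul W h6)

/-- `W` and its short form have the same number of points. -/
theorem card_shortForm (W : WeierstrassCurve F) (h6 : (6 : F) ≠ 0) :
    Nat.card W.toAffine.Point = Nat.card (shortForm W).toAffine.Point := by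
  classical
  exact Nat.card_congr (shortPointEquiv W h6).toEquiv

/-- The trace of Frobenius in terms of the short form. -/
theorem traceOfFrobenius_eq_short (W : WeierstrassCurve F) (h6 : (6 : F) ≠ 0) :
    W.traceOfFrobenius = (Nat.card F : ℤ) + 1 - (Nat.card (shortForm W).toAffine.Point : ℤ) := by
  rw [WeierstrassCurve.traceOfFrobenius, WeierstrassCurve.card, card_shortForm W h6]

lemma six_ne_zero_zmod (l : ℕ) [Fact l.Prime] (hl : 5 ≤ l) : (6 : ZMod l) ≠ 0 := by
  have hp : l.Prime := Fact.out
  intro h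
  have h6 : ((6 : ℕ) : ZMod l) = 0 := by exact_mod_cast h
  rw [ZMod.natCast_eq_zero_iff] at h6
  have h23 : l ∣ 2 * 3 := by simpa using h6
  rcases (Nat.Prime.dvd_mul hp).mp h23 with h | h
  · have := Nat.le_of_dvd (by norm_num) h; omega
  · have := Nat.le_of_dvd (by norm_num) h; omega

/-- **E5-bridge.** For a prime `ℓ ≥ 5`, `a_ℓ` of an integral model is `ℓ + 1` minus the number of
points of the short form `y² = x³ - 27 c₄ x - 54 c₆` over `𝔽_ℓ`. -/
theorem apOfModel_eq_short (W : WeierstrassCurve ℤ) (l : ℕ) [Fact l.Prime] (hl : 5 ≤ l) :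
    W.apOfModel l = (l : ℤ) + 1 -
      (Nat.card (⟨0, 0, 0, -27 * ((W.c₄ : ℤ) : ZMod l), -54 * ((W.c₆ : ℤ) : ZMod l)⟩ :
        WeierstrassCurve (ZMod l)).toAffine.Point : ℤ) := by
  have h := traceOfFrobenius_eq_short (W.reductionMod l) (six_ne_zero_zmod l hl)
  rw [WeierstrassCurve.apOfModel, h, Nat.card_zmod]
  have e : shortForm (W.reductionMod l) =
      (⟨0, 0, 0, -27 * ((W.c₄ : ℤ) : ZMod l), -54 * ((W.c₆ : ℤ) : ZMod l)⟩ :
        WeierstrassCurve (ZMod l)) := by
    simp only [shortForm, WeierstrassCurve.reductionMod, WeierstrassCurve.map_c₄,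
      WeierstrassCurve.map_c₆, eq_intCast]
  rw [e]

/-- Form of the bridge used by the assembly: a congruence between the point counts of the short
forms gives the congruence between the `a_ℓ`. -/
theorem dvd_apOfModel_sub_of_short (W W' : WeierstrassCurve ℤ) (l : ℕ) [Fact l.Prime]
    (hl : 5 ≤ l) (m : ℤ)
    (h : m ∣ (Nat.card (⟨0, 0, 0, -27 * ((W.c₄ : ℤ) : ZMod l), -54 * ((W.c₆ : ℤ) : ZMod l)⟩ :
          WeierstrassCurve (ZMod l)).toAffine.Point : ℤ) -
        (Nat.card (⟨0, 0, 0, -27 * ((W'.c₄ : ℤ) : ZMod l), -54 * ((W'.c₆ : ℤ) : ZMod l)⟩ :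
          WeierstrassCurve (ZMod l)).toAffine.Point : ℤ)) :
    m ∣ W'.apOfModel l - W.apOfModel l := by
  rw [apOfModel_eq_short W l hl, apOfModel_eq_short W' l hl]
  convert h using 1
  ring

/-- If the coefficients of two integral models are congruent modulo `ℓ`, the reductions are equal
curves, hence have the same `a_ℓ` (used for `ℓ ∈ {2, 3}`). -/
theorem apOfModel_eq_of_coeff_congr (W W' : WeierstrassCurve ℤ) (l : ℕ)
    (h₁ : (l : ℤ) ∣ W'.a₁ - W.a₁) (h₂ : (l : ℤ) ∣ W'.a₂ - W.a₂) (h₃ : (l : ℤ) ∣ W'.a₃ - W.a₃)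
    (h₄ : (l : ℤ) ∣ W'.a₄ - W.a₄) (h₆ : (l : ℤ) ∣ W'.a₆ - W.a₆) :
    W'.apOfModel l = W.apOfModel l := by
  have key : W'.reductionMod l = W.reductionMod l := by
    have e : ∀ a b : ℤ, (l : ℤ) ∣ a - b → ((a : ℤ) : ZMod l) = ((b : ℤ) : ZMod l) := by
      intro a b hab
      have := (ZMod.intCast_zmod_eq_zero_iff_dvd (a - b) l).mpr hab
      rw [Int.cast_sub, sub_eq_zero] at this
      exact this
    ext <;> simp only [WeierstrassCurve.reductionMod, WeierstrassCurve.map, eq_intCast]
    · exact e _ _ h₁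
    · exact e _ _ h₂
    · exact e _ _ h₃
    · exact e _ _ h₄
    · exact e _ _ h₆
  rw [WeierstrassCurve.apOfModel, WeierstrassCurve.apOfModel, key]

end Fermat.Agent.S52.H98
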