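import Mathlib

/-!
# S52, package RF: the place `t = c` of the rational function field `k(t)`

For a field `k` and `c : k` we construct the valuation subring `regularAt c` of `RatFunc k` of
rational functions whose (reduced) denominator does not vanish at `c`, and the evaluation
homomorphism `evalAt c : regularAt c →+* k`; its kernel is the set of nonunits.
-/

set_option autoImplicit false

namespace Fermat.Agent.S52.H98

open Polynomial

variable {k : Type*} [Field k]

lemma eval_ne_zero_of_dvd {p q : k[X]} {c : k} (h : p ∣ q) (hq : q.eval c ≠ 0) :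
    p.eval c ≠ 0 := by
  obtain ⟨r, rfl⟩ := h
  intro hp
  exact hq (by rw [eval_mul, hp, zero_mul])

lemma denom_neg_eval_ne_zero {g : RatFunc k} {c : k} (h : (RatFunc.denom g).eval c ≠ 0) :
    (RatFunc.denom (-g)).eval c ≠ 0 := by
  have hd : RatFunc.denom (-g) ∣ RatFunc.denom g := by
    rw [RatFunc.denom_dvd (RatFunc.denom_ne_zero g)]
    exact ⟨-RatFunc.num g, by rw [map_neg, neg_div, RatFunc.num_div_denom]⟩
  exact eval_ne_zero_of_dvd hd h

lemma denom_inv_eval_ne_zero {g : RatFunc k} {c : k} (hg : g ≠ 0)
    (h : (RatFunc.num g).eval c ≠ 0) : (RatFunc.denom g⁻¹).eval c ≠ 0 := by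
  have hn : RatFunc.num g ≠ 0 := by
    intro h0
    exact h (by rw [h0, eval_zero])
  have hd : RatFunc.denom g⁻¹ ∣ RatFunc.num g := by
    rw [RatFunc.denom_dvd hn]
    refine ⟨RatFunc.denom g, ?_⟩
    rw [← inv_div, RatFunc.num_div_denom]
  have _ := hg
  exact eval_ne_zero_of_dvd hd h

lemma num_or_denom_eval_ne_zero (g : RatFunc k) (c : k) :
    (RatFunc.num g).eval c ≠ 0 ∨ (RatFunc.denom g).eval c ≠ 0 := by
  by_contra hcon
  rw [not_or, not_not, not_not] at hcon
  obtain ⟨u, v, huv⟩ := RatFunc.isCoprime_num_denom g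
  have := congrArg (eval c) huv
  rw [eval_add, eval_mul, eval_mul, hcon.1, hcon.2, mul_zero, mul_zero, add_zero, eval_one] at this
  exact zero_ne_one this

/-- The valuation subring of `RatFunc k` of the functions regular at `c`. -/
def regularAt (c : k) : ValuationSubring (RatFunc k) where
  carrier := {g | (RatFunc.denom g).eval c ≠ 0}
  mul_mem' := by
    intro x y hx hy
    exact eval_ne_zero_of_dvd (RatFunc.denom_mul_dvd x y)
      (by rw [eval_mul]; exact mul_ne_zero hx hy)
  one_mem' := by
    show (RatFunc.denom (1 : RatFunc k)).eval c ≠ 0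
    rw [RatFunc.denom_one, eval_one]; exact one_ne_zero
  add_mem' := by
    intro x y hx hy
    exact eval_ne_zero_of_dvd (RatFunc.denom_add_dvd x y)
      (by rw [eval_mul]; exact mul_ne_zero hx hy)
  zero_mem' := by
    show (RatFunc.denom (0 : RatFunc k)).eval c ≠ 0
    rw [RatFunc.denom_zero, eval_one]; exact one_ne_zero
  neg_mem' := by
    intro x hx
    exact denom_neg_eval_ne_zero hx
  mem_or_inv_mem' := by
    intro g
    by_cases hg : g = 0
    · left
      show (RatFunc.denom g).eval c ≠ 0
      rw [hg, RatFunc.denom_zero, eval_one]; exact one_ne_zero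
    · rcases num_or_denom_eval_ne_zero g c with h | h
      · right; exact denom_inv_eval_ne_zero hg h
      · left; exact h

lemma mem_regularAt_iff {c : k} {g : RatFunc k} :
    g ∈ regularAt c ↔ (RatFunc.denom g).eval c ≠ 0 := Iff.rfl

lemma algebraMap_mem_regularAt (c : k) (p : k[X]) :
    algebraMap k[X] (RatFunc k) p ∈ regularAt c := by
  rw [mem_regularAt_iff, RatFunc.denom_algebraMap, eval_one]
  exact one_ne_zero

lemma eval₂_denom_ne_zero_of_mem {c : k} (g : regularAt c) :
    eval₂ (RingHom.id k) c (RatFunc.denom (g : RatFunc k)) ≠ 0 := by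
  rw [eval₂_id]
  exact g.2

/-- Evaluation at `c` on the functions regular at `c`. -/
noncomputable def evalAt (c : k) : regularAt c →+* k where
  toFun g := RatFunc.eval (RingHom.id k) c (g : RatFunc k)
  map_one' := RatFunc.eval_one (RingHom.id k) c
  map_mul' x y := RatFunc.eval_mul (RingHom.id k) c (eval₂_denom_ne_zero_of_mem x)
    (eval₂_denom_ne_zero_of_mem y)
  map_zero' := RatFunc.eval_zero (RingHom.id k) c
  map_add' x y := RatFunc.eval_add (RingHom.id k) c (eval₂_denom_ne_zero_of_mem x)
    (eval₂_denom_ne_zero_of_mem y)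

lemma evalAt_apply (c : k) (g : regularAt c) :
    evalAt c g = (RatFunc.num (g : RatFunc k)).eval c / (RatFunc.denom (g : RatFunc k)).eval c := by
  show RatFunc.eval (RingHom.id k) c (g : RatFunc k) = _
  rw [RatFunc.eval, eval₂_id, eval₂_id]

/-- Evaluation of a polynomial, viewed as a rational function regular at `c`. -/
lemma evalAt_algebraMap (c : k) (p : k[X]) (h : algebraMap k[X] (RatFunc k) p ∈ regularAt c) :
    evalAt c ⟨algebraMap k[X] (RatFunc k) p, h⟩ = p.eval c := by
  rw [evalAt_apply]
  simp only [RatFunc.num_algebraMap, RatFunc.denom_algebraMap, eval_one, div_one]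

lemma evalAt_eq_zero_iff_num (c : k) (g : regularAt c) :
    evalAt c g = 0 ↔ (RatFunc.num (g : RatFunc k)).eval c = 0 := by
  rw [evalAt_apply, div_eq_zero_iff]
  constructor
  · rintro (h | h)
    · exact h
    · exact absurd h g.2
  · exact Or.inl

/-- The kernel of the evaluation at `c` is the maximal ideal of `regularAt c`. -/
theorem evalAt_eq_zero_iff (c : k) (g : regularAt c) :
    evalAt c g = 0 ↔ (g : RatFunc k) ∈ (regularAt c).nonunits := by
  rw [ValuationSubring.mem_nonunits_iff]
  constructor
  · intro h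
    by_contra hlt
    have hle : (regularAt c).valuation (g : RatFunc k) ≤ 1 :=
      ((regularAt c).valuation_le_one_iff _).mpr g.2
    have h1 : (regularAt c).valuation (g : RatFunc k) = 1 := le_antisymm hle (not_lt.mp hlt)
    have hg0 : (g : RatFunc k) ≠ 0 := by
      intro h0
      rw [h0, map_zero] at h1
      exact zero_ne_one h1
    have hinv : (g : RatFunc k)⁻¹ ∈ regularAt c := by
      rw [← (regularAt c).valuation_le_one_iff, map_inv₀, h1, inv_one]
    have hmul : g * ⟨(g : RatFunc k)⁻¹, hinv⟩ = 1 := by
      apply Subtype.ext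
      show (g : RatFunc k) * (g : RatFunc k)⁻¹ = 1
      exact mul_inv_cancel₀ hg0
    have := congrArg (evalAt c) hmul
    rw [map_mul, h, zero_mul, map_one] at this
    exact zero_ne_one this
  · intro hlt
    by_contra hne
    rw [evalAt_eq_zero_iff_num] at hne
    have hg0 : (g : RatFunc k) ≠ 0 := by
      intro h0
      apply hne
      rw [h0, RatFunc.num_zero, eval_zero]
    have hinv : (g : RatFunc k)⁻¹ ∈ regularAt c := denom_inv_eval_ne_zero hg0 hne
    have hle : (regularAt c).valuation (g : RatFunc k)⁻¹ ≤ 1 :=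
      ((regularAt c).valuation_le_one_iff _).mpr hinv
    rw [map_inv₀] at hle
    have hpos : (regularAt c).valuation (g : RatFunc k) ≠ 0 := by
      rw [Ne, map_eq_zero]; exact hg0
    have : 1 ≤ (regularAt c).valuation (g : RatFunc k) := by
      have := (inv_le_one₀ (zero_lt_iff.mpr hpos)).mp hle
      exact this
    exact absurd hlt (not_lt.mpr this)

end Fermat.Agent.S52.H98
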