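import Mathlib
import Fermat.Agent.S52.H61.RedHom
import Fermat.Agent.S52.H98.RegularAt

/-!
# S52, package E5 (core): rigidity of the Frobenius trace modulo `p` along a polynomial family

`rigidity_core` is the group-theoretic heart; `exists_point_endo` constructs the endomorphism of
the group of points induced by a field endomorphism fixing the Weierstrass coefficients;
`rigidity` is the statement for a family `E_t : y² = x³ + a(t) x + b(t)` with `a, b ∈ 𝔽_ℓ[t]`
carrying a `p`-torsion point with polynomial coordinates over an extension field `k` of `𝔽_ℓ`: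
the traces of Frobenius of two good fibres `E_τ₀`, `E_τ₁` (`τᵢ ∈ 𝔽_ℓ`) are congruent modulo `p`,
provided Frobenius satisfies its quadratic equation on both fibres.
-/

set_option autoImplicit false

namespace Fermat.Agent.S52.H98

open WeierstrassCurve WeierstrassCurve.Affine

/-! ### The group-theoretic core -/

/-- An element killed by `2` and by an odd number is zero. -/
lemma eq_zero_of_two_nsmul_of_nsmul {H : Type*} [AddCommGroup H] {p : ℕ} (hcop : Nat.Coprime 2 p)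
    (x : H) (h2 : (2 : ℕ) • x = 0) (hpx : p • x = 0) : x = 0 := by
  have h1 : (Nat.gcd 2 p : ℤ) • x = 0 := by
    rw [Nat.gcd_eq_gcd_ab, add_smul, mul_smul, mul_smul]
    have e2 : ((2 : ℕ) : ℤ) • x = 0 := by rw [natCast_zsmul]; exact h2
    have ep : ((p : ℕ) : ℤ) • x = 0 := by rw [natCast_zsmul]; exact hpx
    rw [smul_comm, e2, smul_zero, smul_comm, ep, smul_zero, add_zero]
  rw [hcop.gcd_eq_one] at h1
  simpa using h1

theorem rigidity_core {G H₀ H₁ : Type*} [AddCommGroup G] [AddCommGroup H₀] [AddCommGroup H₁]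
    (p : ℕ) (hp : p.Prime) (hp2 : p ≠ 2)
    (Φ : G →+ G) (P : G) (hP : p • P = 0) (hΦP : Φ P ≠ 0)
    (r₀ : G →+ H₀) (r₁ : G →+ H₁)
    (hr₀ : ∀ Q, p • Q = 0 → r₀ Q = 0 → Q = 0) (hr₁ : ∀ Q, p • Q = 0 → r₁ Q = 0 → Q = 0)
    (ψ₀ : H₀ →+ H₀) (ψ₁ : H₁ →+ H₁)
    (hc₀ : r₀ (Φ P) = ψ₀ (r₀ P)) (hc₀' : r₀ (Φ (Φ P)) = ψ₀ (ψ₀ (r₀ P)))
    (hc₁ : r₁ (Φ P) = ψ₁ (r₁ P)) (hc₁' : r₁ (Φ (Φ P)) = ψ₁ (ψ₁ (r₁ P)))
    (a₀ a₁ c : ℤ)
    (hCH₀ : ∀ S : H₀, (2 : ℕ) • (ψ₀ (ψ₀ S) - a₀ • ψ₀ S + c • S) = 0)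
    (hCH₁ : ∀ S : H₁, (2 : ℕ) • (ψ₁ (ψ₁ S) - a₁ • ψ₁ S + c • S) = 0) :
    (p : ℤ) ∣ a₁ - a₀ := by
  have hcop : Nat.Coprime 2 p := by
    rw [Nat.coprime_comm, Nat.Prime.coprime_iff_not_dvd hp]
    intro h
    exact hp2 ((Nat.prime_dvd_prime_iff_eq hp Nat.prime_two).mp h)
  have hΦ : p • Φ P = 0 := by rw [← map_nsmul, hP, map_zero]
  have hΦΦ : p • Φ (Φ P) = 0 := by rw [← map_nsmul, hΦ, map_zero]
  have tors : ∀ a : ℤ, p • (Φ (Φ P) - a • Φ P + c • P) = 0 := by
    intro a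
    rw [smul_add, smul_sub, hΦΦ, smul_comm, hΦ, smul_comm p c P, hP, smul_zero, smul_zero,
      sub_zero, add_zero]
  have R₀ : Φ (Φ P) - a₀ • Φ P + c • P = 0 := by
    apply hr₀ _ (tors a₀)
    have key : r₀ (Φ (Φ P) - a₀ • Φ P + c • P) =
        ψ₀ (ψ₀ (r₀ P)) - a₀ • ψ₀ (r₀ P) + c • r₀ P := by
      rw [map_add, map_sub, map_zsmul, map_zsmul, hc₀, hc₀']
    rw [key]
    apply eq_zero_of_two_nsmul_of_nsmul hcop _ (hCH₀ (r₀ P))
    rw [← key, ← map_nsmul, tors a₀, map_zero]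
  have R₁ : Φ (Φ P) - a₁ • Φ P + c • P = 0 := by
    apply hr₁ _ (tors a₁)
    have key : r₁ (Φ (Φ P) - a₁ • Φ P + c • P) =
        ψ₁ (ψ₁ (r₁ P)) - a₁ • ψ₁ (r₁ P) + c • r₁ P := by
      rw [map_add, map_sub, map_zsmul, map_zsmul, hc₁, hc₁']
    rw [key]
    apply eq_zero_of_two_nsmul_of_nsmul hcop _ (hCH₁ (r₁ P))
    rw [← key, ← map_nsmul, tors a₁, map_zero]
  have hdiff : (a₁ - a₀) • Φ P = 0 := by
    rw [sub_smul]
    have := congrArg₂ (· - ·) R₀ R₁
    simp only [sub_zero] at this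
    rw [← this]
    abel
  have hord : addOrderOf (Φ P) = p := by
    have hdvd : addOrderOf (Φ P) ∣ p := addOrderOf_dvd_of_nsmul_eq_zero hΦ
    rcases (Nat.dvd_prime hp).mp hdvd with h1 | h1
    · exact absurd (AddMonoid.addOrderOf_eq_one_iff.mp h1) hΦP
    · exact h1
  have := (addOrderOf_dvd_iff_zsmul_eq_zero (x := Φ P) (i := a₁ - a₀)).mpr hdiff
  rwa [hord] at this

/-! ### The endomorphism of the group of points induced by a field endomorphism -/

section Endo

variable {L : Type*} [Field L] [DecidableEq L]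

/-- Transport of points along an equality of curves. -/
def pointCast {W₁ W₂ : Affine L} (e : W₁ = W₂) : W₁.Point ≃+ W₂.Point :=
  e ▸ AddEquiv.refl _

lemma pointCast_some {W₁ W₂ : Affine L} (e : W₁ = W₂) {x y : L} (h : W₁.Nonsingular x y) :
    pointCast e (Point.some x y h) = Point.some x y (e ▸ h) := by
  subst e
  rfl

omit [DecidableEq L] in
lemma point_some_congr {W : Affine L} {x₁ y₁ x₂ y₂ : L} (h₁ : W.Nonsingular x₁ y₁)
    (hx : x₁ = x₂) (hy : y₁ = y₂) (h₂ : W.Nonsingular x₂ y₂) :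
    Point.some x₁ y₁ h₁ = Point.some x₂ y₂ h₂ := by
  subst hx hy
  rfl

/-- The subfield of the elements fixed by a field endomorphism. -/
abbrev fixedSubfield (φ : L →+* L) : Subfield L := RingHom.eqLocusField φ (RingHom.id L)

/-- A field endomorphism as an algebra homomorphism over its fixed field. -/
def fixedAlgHom (φ : L →+* L) : L →ₐ[fixedSubfield φ] L :=
  { φ with commutes' := fun r => r.2 }

omit [DecidableEq L] in
lemma fixedAlgHom_apply (φ : L →+* L) (x : L) : fixedAlgHom φ x = φ x := rfl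

/-- The model over the fixed field of a curve whose coefficients are fixed by `φ`. -/
def fixedModel (φ : L →+* L) (W : Affine L) (hW : W.map φ = W) : Affine (fixedSubfield φ) :=
  ⟨⟨W.a₁, congrArg WeierstrassCurve.a₁ hW⟩, ⟨W.a₂, congrArg WeierstrassCurve.a₂ hW⟩,
    ⟨W.a₃, congrArg WeierstrassCurve.a₃ hW⟩, ⟨W.a₄, congrArg WeierstrassCurve.a₄ hW⟩,
    ⟨W.a₆, congrArg WeierstrassCurve.a₆ hW⟩⟩

omit [DecidableEq L] in
lemma fixedModel_baseChange (φ : L →+* L) (W : Affine L) (hW : W.map φ = W) :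
    ((fixedModel φ W hW)⁄L) = W := by
  ext <;> rfl

/-- **Endomorphism of points.**  A field endomorphism `φ` fixing the coefficients of `W` induces
an injective endomorphism of the group `W(L)`, given on affine points by `(x, y) ↦ (φ x, φ y)`. -/
theorem exists_point_endo (φ : L →+* L) (W : Affine L) (hW : W.map φ = W) :
    ∃ Φ : W.Point →+ W.Point, Function.Injective Φ ∧
      ∀ (x y : L) (h : W.Nonsingular x y), ∃ h' : W.Nonsingular (φ x) (φ y),
        Φ (Point.some x y h) = Point.some (φ x) (φ y) h' := by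
  set e := fixedModel_baseChange φ W hW with he
  set M : ((fixedModel φ W hW)⁄L).Point →+ ((fixedModel φ W hW)⁄L).Point :=
    Point.map (W' := fixedModel φ W hW) (fixedAlgHom φ) with hM
  refine ⟨(pointCast e).toAddMonoidHom.comp (M.comp (pointCast e).symm.toAddMonoidHom), ?_, ?_⟩
  · intro P Q hPQ
    simp only [AddMonoidHom.coe_comp, AddEquiv.coe_toAddMonoidHom, Function.comp_apply] at hPQ
    have h1 := (pointCast e).injective hPQ
    have h2 := Point.map_injective (W' := fixedModel φ W hW) (fixedAlgHom φ) h1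
    exact (pointCast e).symm.injective h2
  · intro x y h
    have hx : (pointCast e).symm (Point.some x y h) = Point.some x y (e.symm ▸ h) := by
      rw [AddEquiv.symm_apply_eq, pointCast_some]
    have hns : ((fixedModel φ W hW)⁄L).Nonsingular (fixedAlgHom φ x) (fixedAlgHom φ y) :=
      ((fixedModel φ W hW).baseChange_nonsingular (fixedAlgHom φ).injective x y).mpr (e.symm ▸ h)
    have hmap : M (Point.some x y (e.symm ▸ h)) =
        Point.some (fixedAlgHom φ x) (fixedAlgHom φ y) hns := rfl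
    have hns' : W.Nonsingular (φ x) (φ y) := e ▸ hns
    refine ⟨hns', ?_⟩
    simp only [AddMonoidHom.coe_comp, AddEquiv.coe_toAddMonoidHom, Function.comp_apply]
    rw [hx, hmap]
    exact pointCast_some e hns

end Endo

/-! ### Polynomial families over `𝔽_ℓ` -/

section Family

open Polynomial

variable (l : ℕ) [Fact l.Prime] (k : Type*) [Field k] [Algebra (ZMod l) k]

/-- The Weierstrass curve `y² = x³ + a(t) x + b(t)` over `k[t]`. -/
noncomputable def polyCurve (a b : (ZMod l)[X]) : WeierstrassCurve k[X] :=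
  ⟨0, 0, 0, a.map (algebraMap (ZMod l) k), b.map (algebraMap (ZMod l) k)⟩

/-- The generic fibre `E_t : y² = x³ + a(t) x + b(t)` over `k(t)`. -/
noncomputable def famCurve (a b : (ZMod l)[X]) : Affine (RatFunc k) :=
  (polyCurve l k a b).map (algebraMap k[X] (RatFunc k))

variable {k}

/-- The fibre `E_τ : y² = x³ + a(τ) x + b(τ)` over `𝔽_ℓ`. -/
def fibCurve (a b : (ZMod l)[X]) (τ : ZMod l) : Affine (ZMod l) :=
  ⟨0, 0, 0, a.eval τ, b.eval τ⟩

lemma charP_of_zmod_algebra : CharP k l :=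
  charP_of_injective_algebraMap (algebraMap (ZMod l) k).injective l

lemma eval_map_algebraMap (q : (ZMod l)[X]) (τ : ZMod l) :
    (q.map (algebraMap (ZMod l) k)).eval (algebraMap (ZMod l) k τ) =
      algebraMap (ZMod l) k (q.eval τ) := by
  rw [eval_map, eval₂_at_apply]

lemma polyCurve_map_eval (a b : (ZMod l)[X]) (τ : ZMod l) :
    (polyCurve l k a b).map (evalRingHom (algebraMap (ZMod l) k τ)) =
      (fibCurve l a b τ).map (algebraMap (ZMod l) k) := by
  ext
  · simp [polyCurve, fibCurve]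
  · simp [polyCurve, fibCurve]
  · simp [polyCurve, fibCurve]
  · simp only [polyCurve, fibCurve, WeierstrassCurve.map_a₄, coe_evalRingHom]
    exact eval_map_algebraMap l a τ
  · simp only [polyCurve, fibCurve, WeierstrassCurve.map_a₆, coe_evalRingHom]
    exact eval_map_algebraMap l b τ

lemma fib_Δ_ne_zero (a b : (ZMod l)[X]) (τ : ZMod l) (hΔ : (fibCurve l a b τ).Δ ≠ 0) :
    ((fibCurve l a b τ)⁄k).Δ ≠ 0 := by
  have : ((fibCurve l a b τ)⁄k).Δ = algebraMap (ZMod l) k (fibCurve l a b τ).Δ :=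
    WeierstrassCurve.map_Δ _ _
  rw [this]
  exact (map_ne_zero_iff _ (algebraMap (ZMod l) k).injective).mpr hΔ

lemma polyCurve_Δ_ne_zero (a b : (ZMod l)[X]) (τ : ZMod l) (hΔ : (fibCurve l a b τ).Δ ≠ 0) :
    (polyCurve l k a b).Δ ≠ 0 := by
  intro h0
  have h1 : ((polyCurve l k a b).map (evalRingHom (algebraMap (ZMod l) k τ))).Δ = 0 := by
    rw [WeierstrassCurve.map_Δ, h0, map_zero]
  rw [polyCurve_map_eval] at h1
  exact fib_Δ_ne_zero l a b τ hΔ h1

lemma famCurve_Δ_ne_zero (a b : (ZMod l)[X]) (τ : ZMod l) (hΔ : (fibCurve l a b τ).Δ ≠ 0) :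
    (famCurve l k a b).Δ ≠ 0 := by
  have : (famCurve l k a b).Δ = algebraMap k[X] (RatFunc k) (polyCurve l k a b).Δ :=
    WeierstrassCurve.map_Δ _ _
  rw [this]
  exact (map_ne_zero_iff _ (RatFunc.algebraMap_injective k)).mpr
    (polyCurve_Δ_ne_zero l a b τ hΔ)

/-- A polynomial solution gives a point of the generic fibre. -/
lemma fam_equation (a b : (ZMod l)[X]) (q₁ q₂ : k[X])
    (hQ : q₂ ^ 2 = q₁ ^ 3 + a.map (algebraMap (ZMod l) k) * q₁ + b.map (algebraMap (ZMod l) k)) :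
    (famCurve l k a b).Equation (algebraMap k[X] (RatFunc k) q₁)
      (algebraMap k[X] (RatFunc k) q₂) := by
  rw [Affine.equation_iff]
  have := congrArg (algebraMap k[X] (RatFunc k)) hQ
  simp only [map_pow, map_add, map_mul] at this
  simp only [famCurve, polyCurve, WeierstrassCurve.map_a₁, WeierstrassCurve.map_a₂,
    WeierstrassCurve.map_a₃, WeierstrassCurve.map_a₄, WeierstrassCurve.map_a₆, map_zero]
  linear_combination this

/-- A polynomial solution gives a point of every fibre. -/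
lemma fib_equation (a b : (ZMod l)[X]) (τ : ZMod l) (q₁ q₂ : k[X])
    (hQ : q₂ ^ 2 = q₁ ^ 3 + a.map (algebraMap (ZMod l) k) * q₁ + b.map (algebraMap (ZMod l) k)) :
    ((fibCurve l a b τ)⁄k).Equation (q₁.eval (algebraMap (ZMod l) k τ))
      (q₂.eval (algebraMap (ZMod l) k τ)) := by
  rw [Affine.equation_iff]
  have := congrArg (eval (algebraMap (ZMod l) k τ)) hQ
  simp only [eval_pow, eval_add, eval_mul, eval_map_algebraMap] at this
  simp only [fibCurve, WeierstrassCurve.baseChange, WeierstrassCurve.map_a₁,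
    WeierstrassCurve.map_a₂, WeierstrassCurve.map_a₃, WeierstrassCurve.map_a₄,
    WeierstrassCurve.map_a₆, map_zero]
  linear_combination this

variable (k) in
/-- The coefficientwise Frobenius of `k(t)`. -/
noncomputable def coeffFrob : RatFunc k →+* RatFunc k :=
  haveI : CharP k l := charP_of_zmod_algebra l
  IsLocalization.map (M := nonZeroDivisors k[X]) (T := nonZeroDivisors k[X]) (RatFunc k)
    (mapRingHom (frobenius k l))
    (nonZeroDivisors_le_comap_nonZeroDivisors_of_injective _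
      (map_injective _ (frobenius k l).injective))

/-- The coefficientwise Frobenius of `k[t]`. -/
noncomputable def polyFrob (q : k[X]) : k[X] :=
  haveI : CharP k l := charP_of_zmod_algebra l
  q.map (frobenius k l)

lemma coeffFrob_algebraMap (q : k[X]) :
    coeffFrob l k (algebraMap k[X] (RatFunc k) q) = algebraMap k[X] (RatFunc k) (polyFrob l q) := by
  have : CharP k l := charP_of_zmod_algebra l
  exact IsLocalization.map_eq _ q

lemma polyFrob_map (q : (ZMod l)[X]) :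
    polyFrob l (q.map (algebraMap (ZMod l) k)) = q.map (algebraMap (ZMod l) k) := by
  have : CharP k l := charP_of_zmod_algebra l
  rw [polyFrob, Polynomial.map_map]
  congr 1
  exact Subsingleton.elim _ _

lemma polyFrob_eval (q : k[X]) (τ : ZMod l) :
    (polyFrob l q).eval (algebraMap (ZMod l) k τ) = (q.eval (algebraMap (ZMod l) k τ)) ^ l := by
  have : CharP k l := charP_of_zmod_algebra l
  have hτ : algebraMap (ZMod l) k τ = frobenius k l (algebraMap (ZMod l) k τ) := by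
    rw [frobenius_def, ← map_pow, ZMod.pow_card]
  rw [polyFrob, eval_map]
  conv_lhs => rw [hτ]
  rw [eval₂_at_apply, frobenius_def]

lemma polyFrob_equation (a b : (ZMod l)[X]) (q₁ q₂ : k[X])
    (hQ : q₂ ^ 2 = q₁ ^ 3 + a.map (algebraMap (ZMod l) k) * q₁ + b.map (algebraMap (ZMod l) k)) :
    polyFrob l q₂ ^ 2 = polyFrob l q₁ ^ 3 + a.map (algebraMap (ZMod l) k) * polyFrob l q₁ +
      b.map (algebraMap (ZMod l) k) := by
  have : CharP k l := charP_of_zmod_algebra l
  have := congrArg (Polynomial.map (frobenius k l)) hQ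
  simp only [Polynomial.map_pow, Polynomial.map_add, Polynomial.map_mul] at this
  have ha := polyFrob_map l (k := k) a
  have hb := polyFrob_map l (k := k) b
  simp only [polyFrob] at ha hb ⊢
  rw [ha, hb] at this
  exact this

lemma famCurve_map_coeffFrob (a b : (ZMod l)[X]) :
    (famCurve l k a b).map (coeffFrob l k) = famCurve l k a b := by
  ext
  · simp [famCurve, polyCurve]
  · simp [famCurve, polyCurve]
  · simp [famCurve, polyCurve]
  · simp only [famCurve, polyCurve, WeierstrassCurve.map_a₄]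
    rw [coeffFrob_algebraMap, polyFrob_map]
  · simp only [famCurve, polyCurve, WeierstrassCurve.map_a₆]
    rw [coeffFrob_algebraMap, polyFrob_map]

lemma famCurve_integral (a b : (ZMod l)[X]) (c : k) :
    Fermat.Agent.S05.H60.IntegralCoeffs (regularAt c) (famCurve l k a b) := by
  refine ⟨?_, ?_, ?_, ?_, ?_⟩ <;>
  · simp only [famCurve, polyCurve, WeierstrassCurve.map_a₁, WeierstrassCurve.map_a₂,
      WeierstrassCurve.map_a₃, WeierstrassCurve.map_a₄, WeierstrassCurve.map_a₆]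
    exact algebraMap_mem_regularAt c _

lemma natCast_not_mem_nonunits (p : ℕ) (hp : p.Prime) (hpl : p ≠ l) (c : k) :
    ((p : ℕ) : RatFunc k) ∉ (regularAt c).nonunits := by
  have : CharP k l := charP_of_zmod_algebra l
  have hmem : algebraMap k[X] (RatFunc k) ((p : ℕ) : k[X]) ∈ regularAt c :=
    algebraMap_mem_regularAt c _
  have hcast : algebraMap k[X] (RatFunc k) ((p : ℕ) : k[X]) = ((p : ℕ) : RatFunc k) :=
    map_natCast _ p
  intro hnu
  rw [← hcast] at hnu
  have h0 := (evalAt_eq_zero_iff c ⟨_, hmem⟩).mpr hnu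
  rw [evalAt_algebraMap, eval_natCast] at h0
  have hdvd : l ∣ p := (CharP.cast_eq_zero_iff k l p).mp h0
  have hl : l.Prime := Fact.out
  exact hpl ((Nat.prime_dvd_prime_iff_eq hl hp).mp hdvd).symm

/-- **Specialisation at a good fibre.**  The reduction homomorphism of the generic fibre at
`t = τ`: it is injective on `p`-torsion (`p ≠ 2, ℓ`) and sends a point with polynomial coordinates
to the point with the evaluated coordinates. -/
theorem exists_fibre_hom [DecidableEq k] [DecidableEq (RatFunc k)] (p : ℕ) (hp : p.Prime)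
    (hp2 : p ≠ 2) (hpl : p ≠ l) (a b : (ZMod l)[X]) (τ : ZMod l)
    (hΔ : (fibCurve l a b τ).Δ ≠ 0) :
    ∃ r : (famCurve l k a b).Point →+ ((fibCurve l a b τ)⁄k).Point,
      (∀ Q, p • Q = 0 → r Q = 0 → Q = 0) ∧
      ∀ (q₁ q₂ : k[X])
        (h : (famCurve l k a b).Nonsingular (algebraMap k[X] (RatFunc k) q₁)
          (algebraMap k[X] (RatFunc k) q₂))
        (hk : ((fibCurve l a b τ)⁄k).Nonsingular (q₁.eval (algebraMap (ZMod l) k τ))
          (q₂.eval (algebraMap (ZMod l) k τ))),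
        r (Point.some _ _ h) = Point.some _ _ hk := by
  set c : k := algebraMap (ZMod l) k τ with hc
  have hW := famCurve_integral l (k := k) a b c
  have e0 : evalAt c ⟨algebraMap k[X] (RatFunc k) 0, algebraMap_mem_regularAt c 0⟩ =
      algebraMap (ZMod l) k 0 := by
    rw [evalAt_algebraMap, eval_zero, map_zero]
  obtain ⟨r, hr0, hrs⟩ := Fermat.Agent.S52.H61.exists_red_hom (regularAt c) (evalAt c)
    (evalAt_eq_zero_iff c) (famCurve l k a b) hW ((fibCurve l a b τ)⁄k)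
    e0 e0 e0
    (by
      show evalAt c ⟨algebraMap k[X] (RatFunc k) (a.map (algebraMap (ZMod l) k)),
        algebraMap_mem_regularAt c _⟩ = algebraMap (ZMod l) k (a.eval τ)
      rw [evalAt_algebraMap, hc, eval_map_algebraMap])
    (by
      show evalAt c ⟨algebraMap k[X] (RatFunc k) (b.map (algebraMap (ZMod l) k)),
        algebraMap_mem_regularAt c _⟩ = algebraMap (ZMod l) k (b.eval τ)
      rw [evalAt_algebraMap, hc, eval_map_algebraMap])
    (fib_Δ_ne_zero l a b τ hΔ)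
  refine ⟨r, ?_, ?_⟩
  · intro Q hpQ hQ
    exact Fermat.Agent.S05.H60.eq_zero_of_mem_E1_of_prime_nsmul_eq_zero hW hp hp2
      (natCast_not_mem_nonunits l p hp hpl c) ((hr0 Q).mp hQ) hpQ
  · intro q₁ q₂ h hk
    have h1 := algebraMap_mem_regularAt c q₁
    have h2 := algebraMap_mem_regularAt c q₂
    have hk' : ((fibCurve l a b τ)⁄k).Nonsingular
        (evalAt c ⟨algebraMap k[X] (RatFunc k) q₁, h1⟩)
        (evalAt c ⟨algebraMap k[X] (RatFunc k) q₂, h2⟩) := by
      rw [evalAt_algebraMap, evalAt_algebraMap]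
      exact hk
    rw [hrs _ _ h h1 h2 hk']
    exact point_some_congr hk' (evalAt_algebraMap c q₁ h1) (evalAt_algebraMap c q₂ h2) hk

/-- **Rigidity of the trace of Frobenius modulo `p` along a polynomial family.**

Let `a, b ∈ 𝔽_ℓ[t]` and let `k` be a field extension of `𝔽_ℓ`.  Suppose the generic fibre
`E_t : y² = x³ + a(t) x + b(t)` over `k(t)` carries a point of order `p` (`p ≠ 2, ℓ` prime) with
polynomial coordinates `(X(t), Y(t))`, `X, Y ∈ k[t]`.  Let `τ₀, τ₁ ∈ 𝔽_ℓ` be parameters with good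
fibres, and suppose that on `E_τᵢ(k)` the `ℓ`-power Frobenius `ψᵢ` satisfies
`2 (ψᵢ² - aᵢ ψᵢ + c) = 0`.  Then `a₁ ≡ a₀ mod p`. -/
theorem rigidity [DecidableEq k] [DecidableEq (RatFunc k)] (p : ℕ) (hp : p.Prime)
    (hp2 : p ≠ 2) (hpl : p ≠ l) (a b : (ZMod l)[X]) (X Y : k[X])
    (hon : Y ^ 2 = X ^ 3 + a.map (algebraMap (ZMod l) k) * X + b.map (algebraMap (ZMod l) k))
    (htors : ∀ hns : (famCurve l k a b).Nonsingular (algebraMap k[X] (RatFunc k) X)
        (algebraMap k[X] (RatFunc k) Y), p • (Point.some _ _ hns) = 0)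
    (τ₀ τ₁ : ZMod l) (hΔ₀ : (fibCurve l a b τ₀).Δ ≠ 0) (hΔ₁ : (fibCurve l a b τ₁).Δ ≠ 0)
    (ψ₀ : ((fibCurve l a b τ₀)⁄k).Point →+ ((fibCurve l a b τ₀)⁄k).Point)
    (hψ₀ : ∀ (x y : k) (h : ((fibCurve l a b τ₀)⁄k).Nonsingular x y),
      ∃ h', ψ₀ (Point.some x y h) = Point.some (x ^ l) (y ^ l) h')
    (ψ₁ : ((fibCurve l a b τ₁)⁄k).Point →+ ((fibCurve l a b τ₁)⁄k).Point)
    (hψ₁ : ∀ (x y : k) (h : ((fibCurve l a b τ₁)⁄k).Nonsingular x y),
      ∃ h', ψ₁ (Point.some x y h) = Point.some (x ^ l) (y ^ l) h')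
    (a₀ a₁ c : ℤ)
    (hCH₀ : ∀ S, (2 : ℕ) • (ψ₀ (ψ₀ S) - a₀ • ψ₀ S + c • S) = 0)
    (hCH₁ : ∀ S, (2 : ℕ) • (ψ₁ (ψ₁ S) - a₁ • ψ₁ S + c • S) = 0) :
    (p : ℤ) ∣ a₁ - a₀ := by
  -- nonsingularity of polynomial points on the generic fibre and on the fibres
  have famNS : ∀ q₁ q₂ : k[X],
      q₂ ^ 2 = q₁ ^ 3 + a.map (algebraMap (ZMod l) k) * q₁ + b.map (algebraMap (ZMod l) k) →
      (famCurve l k a b).Nonsingular (algebraMap k[X] (RatFunc k) q₁)
        (algebraMap k[X] (RatFunc k) q₂) := fun q₁ q₂ hQ =>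
    (equation_iff_nonsingular_of_Δ_ne_zero (famCurve_Δ_ne_zero l a b τ₀ hΔ₀)).mp
      (fam_equation l a b q₁ q₂ hQ)
  have fibNS : ∀ (τ : ZMod l), (fibCurve l a b τ).Δ ≠ 0 → ∀ q₁ q₂ : k[X],
      q₂ ^ 2 = q₁ ^ 3 + a.map (algebraMap (ZMod l) k) * q₁ + b.map (algebraMap (ZMod l) k) →
      ((fibCurve l a b τ)⁄k).Nonsingular (q₁.eval (algebraMap (ZMod l) k τ))
        (q₂.eval (algebraMap (ZMod l) k τ)) := fun τ hΔ q₁ q₂ hQ =>
    (equation_iff_nonsingular_of_Δ_ne_zero (fib_Δ_ne_zero l a b τ hΔ)).mp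
      (fib_equation l a b τ q₁ q₂ hQ)
  -- the Frobenius twists of the polynomial point
  have hon1 := polyFrob_equation l a b X Y hon
  -- the endomorphism `Φ` of the generic fibre
  obtain ⟨Φ, hΦinj, hΦ⟩ := exists_point_endo (coeffFrob l k) (famCurve l k a b)
    (famCurve_map_coeffFrob l a b)
  have hΦpoly : ∀ (q₁ q₂ : k[X])
      (hQ : q₂ ^ 2 = q₁ ^ 3 + a.map (algebraMap (ZMod l) k) * q₁ +
        b.map (algebraMap (ZMod l) k)),
      Φ (Point.some _ _ (famNS q₁ q₂ hQ)) =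
        Point.some _ _ (famNS _ _ (polyFrob_equation l a b q₁ q₂ hQ)) := by
    intro q₁ q₂ hQ
    obtain ⟨h', e⟩ := hΦ _ _ (famNS q₁ q₂ hQ)
    rw [e]
    exact point_some_congr h' (coeffFrob_algebraMap l q₁) (coeffFrob_algebraMap l q₂) _
  set P : (famCurve l k a b).Point := Point.some _ _ (famNS X Y hon) with hPdef
  have hP : p • P = 0 := htors _
  have hΦP : Φ P ≠ 0 := by
    intro h0
    have : P = 0 := hΦinj (h0.trans (map_zero Φ).symm)
    exact Point.some_ne_zero _ this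
  -- compatibility of the specialisation with Frobenius, at a good fibre
  have compat : ∀ (τ : ZMod l) (hΔ : (fibCurve l a b τ).Δ ≠ 0)
      (ψ : ((fibCurve l a b τ)⁄k).Point →+ ((fibCurve l a b τ)⁄k).Point)
      (_ : ∀ (x y : k) (h : ((fibCurve l a b τ)⁄k).Nonsingular x y),
        ∃ h', ψ (Point.some x y h) = Point.some (x ^ l) (y ^ l) h'),
      ∃ r : (famCurve l k a b).Point →+ ((fibCurve l a b τ)⁄k).Point,
        (∀ Q, p • Q = 0 → r Q = 0 → Q = 0) ∧ r (Φ P) = ψ (r P) ∧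
          r (Φ (Φ P)) = ψ (ψ (r P)) := by
    intro τ hΔ ψ hψ
    obtain ⟨r, hrinj, hrs⟩ := exists_fibre_hom l p hp hp2 hpl a b τ hΔ (k := k)
    have step : ∀ (q₁ q₂ : k[X])
        (hQ : q₂ ^ 2 = q₁ ^ 3 + a.map (algebraMap (ZMod l) k) * q₁ +
          b.map (algebraMap (ZMod l) k)),
        r (Φ (Point.some _ _ (famNS q₁ q₂ hQ))) = ψ (r (Point.some _ _ (famNS q₁ q₂ hQ))) := by
      intro q₁ q₂ hQ
      rw [hΦpoly q₁ q₂ hQ, hrs _ _ _ (fibNS τ hΔ _ _ (polyFrob_equation l a b q₁ q₂ hQ)),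
        hrs _ _ _ (fibNS τ hΔ q₁ q₂ hQ)]
      obtain ⟨h', e⟩ := hψ _ _ (fibNS τ hΔ q₁ q₂ hQ)
      rw [e]
      exact point_some_congr _ (polyFrob_eval l q₁ τ) (polyFrob_eval l q₂ τ) h'
    refine ⟨r, hrinj, step X Y hon, ?_⟩
    have h1 : Φ P = Point.some _ _ (famNS _ _ hon1) := hΦpoly X Y hon
    rw [h1, step _ _ hon1, ← h1, step X Y hon]
  obtain ⟨r₀, hr₀, hc₀, hc₀'⟩ := compat τ₀ hΔ₀ ψ₀ hψ₀
  obtain ⟨r₁, hr₁, hc₁, hc₁'⟩ := compat τ₁ hΔ₁ ψ₁ hψ₁
  exact rigidity_core p hp hp2 Φ P hP hΦP r₀ r₁ hr₀ hr₁ ψ₀ ψ₁ hc₀ hc₀' hc₁ hc₁' a₀ a₁ c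
    hCH₀ hCH₁

end Family

end Fermat.Agent.S52.H98
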