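import Mathlib
import Fermat.Agent.S52.H98.Rigidity
import Fermat.Agent.S52.H3.FamilyIface
import Fermat.Agent.S52.H91.TorsPoint
import Fermat.Agent.S52.H94.CHModel
import Fermat.Agent.S52.H61.FamilyNoRoot

/-!
# S52, package E5: Theorem A' for a Klein family

`thmA_of_isKleinFamily`: for any family `(Rh, Sh, Dh)` satisfying helper3's interface
`H3.IsKleinFamily` (the three line identities of the Klein forms), Cayley–Hamilton for Frobenius
(`H94.CHStatement`) implies Theorem A' in the shape `H3.ThmA` consumed by the final assembly.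

The proof applies `H98.rigidity` to the affine line through the parameter points `(1, 0)` and
`(ν, μ)`, with the explicit `5`-torsion point `H91.klein_torsion_point` over `RatFunc k`,
`k = AlgebraicClosure (ZMod l)`.
-/

set_option autoImplicit false

namespace Fermat.Agent.S52.H98

open WeierstrassCurve WeierstrassCurve.Affine Polynomial

section Prelim

/-- The discriminant of a short Weierstrass curve. -/
lemma short_Δ {R : Type*} [CommRing R] (A B : R) :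
    (⟨0, 0, 0, A, B⟩ : WeierstrassCurve R).Δ = -16 * (4 * A ^ 3 + 27 * B ^ 2) := by
  simp only [WeierstrassCurve.Δ, WeierstrassCurve.b₂, WeierstrassCurve.b₄, WeierstrassCurve.b₆,
    WeierstrassCurve.b₈]
  ring

lemma natCast_ne_zero_of_lt (l : ℕ) [Fact l.Prime] {K : Type*} [Field K] [Algebra (ZMod l) K]
    (n : ℕ) (h0 : 0 < n) (hn : n < l) : (n : K) ≠ 0 := by
  have : CharP K l := charP_of_zmod_algebra l
  intro h
  have hdvd : l ∣ n := (CharP.cast_eq_zero_iff K l n).mp h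
  exact absurd (Nat.le_of_dvd h0 hdvd) (not_le.mpr hn)

end Prelim

section Family

variable (Rh Sh Dh : ∀ (R : Type) [CommRing R], R → R → R → R → R)
variable (l : ℕ) [Fact l.Prime] (A0 B0 ν μ : ZMod l)

/-- `n(t) = 1 + t (ν - 1)`. -/
noncomputable def lineN : (ZMod l)[X] := 1 + X * C (ν - 1)

/-- `m(t) = t μ`. -/
noncomputable def lineM : (ZMod l)[X] := X * C μ

/-- `a(t) = 27 Rh(A₀, B₀; n(t), m(t))`. -/
noncomputable def famA : (ZMod l)[X] :=
  27 * Rh (ZMod l)[X] (C A0) (C B0) (lineN l ν) (lineM l μ)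

/-- `b(t) = 54 Sh(A₀, B₀; n(t), m(t))`. -/
noncomputable def famB : (ZMod l)[X] :=
  54 * Sh (ZMod l)[X] (C A0) (C B0) (lineN l ν) (lineM l μ)

/-- `D(t) = Dh(A₀, B₀; n(t), m(t))`. -/
noncomputable def famD : (ZMod l)[X] :=
  Dh (ZMod l)[X] (C A0) (C B0) (lineN l ν) (lineM l μ)

lemma lineN_eval (τ : ZMod l) : (lineN l ν).eval τ = 1 + τ * (ν - 1) := by
  rw [lineN, eval_add, eval_one, eval_mul, eval_X, eval_C]

lemma lineM_eval (τ : ZMod l) : (lineM l μ).eval τ = τ * μ := by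
  rw [lineM, eval_mul, eval_X, eval_C]

variable {Rh Sh Dh}

lemma famA_eval (hfam : H3.IsKleinFamily Rh Sh Dh) (τ : ZMod l) :
    (famA Rh l A0 B0 ν μ).eval τ = 27 * Rh (ZMod l) A0 B0 (1 + τ * (ν - 1)) (τ * μ) := by
  have h := hfam.map_Rh (evalRingHom τ) (C A0) (C B0) (lineN l ν) (lineM l μ)
  simp only [coe_evalRingHom, eval_C, lineN_eval, lineM_eval] at h
  rw [famA, eval_mul, h, eval_ofNat]

lemma famB_eval (hfam : H3.IsKleinFamily Rh Sh Dh) (τ : ZMod l) :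
    (famB Sh l A0 B0 ν μ).eval τ = 54 * Sh (ZMod l) A0 B0 (1 + τ * (ν - 1)) (τ * μ) := by
  have h := hfam.map_Sh (evalRingHom τ) (C A0) (C B0) (lineN l ν) (lineM l μ)
  simp only [coe_evalRingHom, eval_C, lineN_eval, lineM_eval] at h
  rw [famB, eval_mul, h, eval_ofNat]

lemma famD_eval (hfam : H3.IsKleinFamily Rh Sh Dh) (τ : ZMod l) :
    (famD Dh l A0 B0 ν μ).eval τ = Dh (ZMod l) A0 B0 (1 + τ * (ν - 1)) (τ * μ) := by
  have h := hfam.map_Dh (evalRingHom τ) (C A0) (C B0) (lineN l ν) (lineM l μ)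
  simp only [coe_evalRingHom, eval_C, lineN_eval, lineM_eval] at h
  rw [famD, h]

lemma famA_eval_zero (hfam : H3.IsKleinFamily Rh Sh Dh) :
    (famA Rh l A0 B0 ν μ).eval 0 = 27 * A0 := by
  rw [famA_eval l A0 B0 ν μ hfam, zero_mul, zero_mul, add_zero, hfam.Rh_zero, one_pow, mul_one]

lemma famB_eval_zero (hfam : H3.IsKleinFamily Rh Sh Dh) :
    (famB Sh l A0 B0 ν μ).eval 0 = 54 * B0 := by
  rw [famB_eval l A0 B0 ν μ hfam, zero_mul, zero_mul, add_zero, hfam.Sh_zero, one_pow, mul_one]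

lemma famD_eval_zero (hfam : H3.IsKleinFamily Rh Sh Dh) :
    (famD Dh l A0 B0 ν μ).eval 0 = 1 := by
  rw [famD_eval l A0 B0 ν μ hfam, zero_mul, zero_mul, add_zero, hfam.Dh_zero, one_pow]

lemma famA_eval_one (hfam : H3.IsKleinFamily Rh Sh Dh) :
    (famA Rh l A0 B0 ν μ).eval 1 = 27 * Rh (ZMod l) A0 B0 ν μ := by
  rw [famA_eval l A0 B0 ν μ hfam, one_mul, one_mul, add_sub_cancel]

lemma famB_eval_one (hfam : H3.IsKleinFamily Rh Sh Dh) :
    (famB Sh l A0 B0 ν μ).eval 1 = 54 * Sh (ZMod l) A0 B0 ν μ := by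
  rw [famB_eval l A0 B0 ν μ hfam, one_mul, one_mul, add_sub_cancel]

end Family

section OverK

variable {Rh Sh Dh : ∀ (R : Type) [CommRing R], R → R → R → R → R}
variable (l : ℕ) [Fact l.Prime] (A0 B0 ν μ : ZMod l)
variable {k : Type} [Field k] [Algebra (ZMod l) k]

/-- First coordinate of the moving point `n(t) v₀ + m(t) w(v₀)`. -/
noncomputable def lineVx (x0 y0 : k) : k[X] :=
  (lineN l ν).map (algebraMap (ZMod l) k) * C x0 +
    (lineM l μ).map (algebraMap (ZMod l) k) * C (H93.kwx x0 y0)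

/-- Second coordinate of the moving point `n(t) v₀ + m(t) w(v₀)`. -/
noncomputable def lineVy (x0 y0 : k) : k[X] :=
  (lineN l ν).map (algebraMap (ZMod l) k) * C y0 +
    (lineM l μ).map (algebraMap (ZMod l) k) * C (H93.kwy x0 y0)

lemma famA_map (hfam : H3.IsKleinFamily Rh Sh Dh) (x0 y0 : k)
    (hH : H93.kH x0 y0 = algebraMap (ZMod l) k A0) (hT : H93.kT x0 y0 = algebraMap (ZMod l) k B0) :
    (famA Rh l A0 B0 ν μ).map (algebraMap (ZMod l) k) =
      27 * H93.kH (lineVx l ν μ x0 y0) (lineVy l ν μ x0 y0) := by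
  have h1 := hfam.lineH (C x0) (C y0) ((lineN l ν).map (algebraMap (ZMod l) k))
    ((lineM l μ).map (algebraMap (ZMod l) k))
  rw [← H61.map_kwx (C : k →+* k[X]) x0 y0, ← H61.map_kwy (C : k →+* k[X]) x0 y0,
    ← H61.map_kH (C : k →+* k[X]) x0 y0, ← H61.map_kT (C : k →+* k[X]) x0 y0, hH, hT] at h1
  have h2 := hfam.map_Rh (mapRingHom (algebraMap (ZMod l) k)) (C A0) (C B0) (lineN l ν)
    (lineM l μ)
  simp only [coe_mapRingHom, map_C] at h2
  rw [famA, Polynomial.map_mul, h2, lineVx, lineVy, h1, Polynomial.map_ofNat]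

lemma famB_map (hfam : H3.IsKleinFamily Rh Sh Dh) (x0 y0 : k)
    (hH : H93.kH x0 y0 = algebraMap (ZMod l) k A0) (hT : H93.kT x0 y0 = algebraMap (ZMod l) k B0) :
    (famB Sh l A0 B0 ν μ).map (algebraMap (ZMod l) k) =
      54 * H93.kT (lineVx l ν μ x0 y0) (lineVy l ν μ x0 y0) := by
  have h1 := hfam.lineT (C x0) (C y0) ((lineN l ν).map (algebraMap (ZMod l) k))
    ((lineM l μ).map (algebraMap (ZMod l) k))
  rw [← H61.map_kwx (C : k →+* k[X]) x0 y0, ← H61.map_kwy (C : k →+* k[X]) x0 y0,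
    ← H61.map_kH (C : k →+* k[X]) x0 y0, ← H61.map_kT (C : k →+* k[X]) x0 y0, hH, hT] at h1
  have h2 := hfam.map_Sh (mapRingHom (algebraMap (ZMod l) k)) (C A0) (C B0) (lineN l ν)
    (lineM l μ)
  simp only [coe_mapRingHom, map_C] at h2
  rw [famB, Polynomial.map_mul, h2, lineVx, lineVy, h1, Polynomial.map_ofNat]

lemma kf_line (hfam : H3.IsKleinFamily Rh Sh Dh) (x0 y0 : k)
    (hH : H93.kH x0 y0 = algebraMap (ZMod l) k A0) (hT : H93.kT x0 y0 = algebraMap (ZMod l) k B0) :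
    H93.kf (lineVx l ν μ x0 y0) (lineVy l ν μ x0 y0) =
      C (H93.kf x0 y0) * (famD Dh l A0 B0 ν μ).map (algebraMap (ZMod l) k) := by
  have h1 := hfam.lineF (C x0) (C y0) ((lineN l ν).map (algebraMap (ZMod l) k))
    ((lineM l μ).map (algebraMap (ZMod l) k))
  rw [← H61.map_kwx (C : k →+* k[X]) x0 y0, ← H61.map_kwy (C : k →+* k[X]) x0 y0,
    ← H61.map_kH (C : k →+* k[X]) x0 y0, ← H61.map_kT (C : k →+* k[X]) x0 y0,
    ← H61.map_kf (C : k →+* k[X]) x0 y0, hH, hT] at h1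
  have h2 := hfam.map_Dh (mapRingHom (algebraMap (ZMod l) k)) (C A0) (C B0) (lineN l ν)
    (lineM l μ)
  simp only [coe_mapRingHom, map_C] at h2
  rw [famD, h2, lineVx, lineVy, h1]

lemma kf_line_ne_zero (hfam : H3.IsKleinFamily Rh Sh Dh) (x0 y0 : k)
    (hH : H93.kH x0 y0 = algebraMap (ZMod l) k A0) (hT : H93.kT x0 y0 = algebraMap (ZMod l) k B0)
    (hf : H93.kf x0 y0 ≠ 0) :
    H93.kf (lineVx l ν μ x0 y0) (lineVy l ν μ x0 y0) ≠ 0 := by
  intro h0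
  have h := congrArg (eval 0) (kf_line l A0 B0 ν μ hfam x0 y0 hH hT)
  rw [h0, eval_zero, eval_mul, eval_C, eval_zero_map, famD_eval_zero l A0 B0 ν μ hfam, map_one,
    mul_one] at h
  exact hf h.symm

/-- The syzygy at the second parameter point: `Rh³ + Sh² ≠ 0` when `Dh ≠ 0`. -/
lemma fam_syzygy_ne_zero (hfam : H3.IsKleinFamily Rh Sh Dh) (x0 y0 : k)
    (hH : H93.kH x0 y0 = algebraMap (ZMod l) k A0) (hT : H93.kT x0 y0 = algebraMap (ZMod l) k B0)
    (hf : H93.kf x0 y0 ≠ 0) (h1728 : (1728 : k) ≠ 0) (hD : Dh (ZMod l) A0 B0 ν μ ≠ 0) :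
    Rh (ZMod l) A0 B0 ν μ ^ 3 + Sh (ZMod l) A0 B0 ν μ ^ 2 ≠ 0 := by
  set ι := algebraMap (ZMod l) k with hι
  have hR := hfam.lineH x0 y0 (ι ν) (ι μ)
  have hS := hfam.lineT x0 y0 (ι ν) (ι μ)
  have hF := hfam.lineF x0 y0 (ι ν) (ι μ)
  rw [hH, hT, ← hfam.map_Rh ι] at hR
  rw [hH, hT, ← hfam.map_Sh ι] at hS
  rw [hH, hT, ← hfam.map_Dh ι] at hF
  have hsyz := H93.kT_sq_add_kH_cube (ι ν * x0 + ι μ * H93.kwx x0 y0)
    (ι ν * y0 + ι μ * H93.kwy x0 y0)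
  rw [hR, hS, hF] at hsyz
  intro h0
  have h0' : ι (Sh (ZMod l) A0 B0 ν μ) ^ 2 + ι (Rh (ZMod l) A0 B0 ν μ) ^ 3 = 0 := by
    rw [← map_pow, ← map_pow, ← map_add, add_comm, h0, map_zero]
  rw [h0'] at hsyz
  have hDk : ι (Dh (ZMod l) A0 B0 ν μ) ≠ 0 := (map_ne_zero_iff _ ι.injective).mpr hD
  exact (mul_ne_zero h1728 (pow_ne_zero 5 (mul_ne_zero hf hDk))) hsyz.symm

end OverK

section Main

variable {Rh Sh Dh : ∀ (R : Type) [CommRing R], R → R → R → R → R}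

lemma ofNat_ratFunc_ne_zero {k : Type*} [Field k] (n : ℕ) [n.AtLeastTwo]
    (h : (OfNat.ofNat n : k) ≠ 0) : (OfNat.ofNat n : RatFunc k) ≠ 0 := by
  rw [← map_ofNat (algebraMap k (RatFunc k)) n]
  exact (map_ne_zero_iff _ (algebraMap k (RatFunc k)).injective).mpr h

open Classical in
/-- Theorem A' over a fixed algebraically closed field `k ⊇ 𝔽_ℓ`. -/
theorem thmA_aux (hfam : H3.IsKleinFamily Rh Sh Dh) (l : ℕ) [Fact l.Prime] (hl : 7 ≤ l)
    (k : Type) [Field k] [Algebra (ZMod l) k] [IsAlgClosed k]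
    (hCH : ∀ A B : ZMod l, 4 * A ^ 3 + 27 * B ^ 2 ≠ 0 → H94.CHStatement l A B)
    (A0 B0 ν μ : ZMod l) (hAB : A0 ^ 3 + B0 ^ 2 ≠ 0) (hD : Dh (ZMod l) A0 B0 ν μ ≠ 0) :
    (5 : ℤ) ∣
      (Nat.card (⟨0, 0, 0, 27 * Rh (ZMod l) A0 B0 ν μ, 54 * Sh (ZMod l) A0 B0 ν μ⟩ :
          WeierstrassCurve (ZMod l)).toAffine.Point : ℤ)
        - (Nat.card (⟨0, 0, 0, 27 * A0, 54 * B0⟩ : WeierstrassCurve (ZMod l)).toAffine.Point : ℤ)
    := by
  -- small primes are invertible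
  have h2k : (2 : k) ≠ 0 := by
    have := natCast_ne_zero_of_lt l (K := k) 2 (by norm_num) (by omega)
    exact_mod_cast this
  have h3k : (3 : k) ≠ 0 := by
    have := natCast_ne_zero_of_lt l (K := k) 3 (by norm_num) (by omega)
    exact_mod_cast this
  have h5k : (5 : k) ≠ 0 := by
    have := natCast_ne_zero_of_lt l (K := k) 5 (by norm_num) (by omega)
    exact_mod_cast this
  have h2l : (2 : ZMod l) ≠ 0 := by
    have := natCast_ne_zero_of_lt l (K := ZMod l) 2 (by norm_num) (by omega)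
    exact_mod_cast this
  have h3l : (3 : ZMod l) ≠ 0 := by
    have := natCast_ne_zero_of_lt l (K := ZMod l) 3 (by norm_num) (by omega)
    exact_mod_cast this
  have h1728 : (1728 : k) ≠ 0 := by
    have : (1728 : k) = 2 ^ 6 * 3 ^ 3 := by norm_num
    rw [this]
    exact mul_ne_zero (pow_ne_zero _ h2k) (pow_ne_zero _ h3k)
  -- the base point `v₀` and the constants
  obtain ⟨x0, y0, hH, hT, hf⟩ := H91.exists_klein_point' h2k h3k h5k
    (algebraMap (ZMod l) k A0) (algebraMap (ZMod l) k B0)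
    (by
      rw [← map_pow, ← map_pow, ← map_add]
      exact (map_ne_zero_iff _ (algebraMap (ZMod l) k).injective).mpr hAB)
  have hH' : H93.kH x0 y0 = algebraMap (ZMod l) k A0 := hH
  have hT' : H93.kT x0 y0 = algebraMap (ZMod l) k B0 := hT
  have hf' : H93.kf x0 y0 ≠ 0 := hf
  obtain ⟨r0, p0, hr0, hp0⟩ := H91.exists_tors_constants (K := k)
  -- the family
  obtain ⟨a, ha⟩ : ∃ a, a = famA Rh l A0 B0 ν μ := ⟨_, rfl⟩
  obtain ⟨b, hb⟩ : ∃ b, b = famB Sh l A0 B0 ν μ := ⟨_, rfl⟩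
  obtain ⟨vx, hvx⟩ : ∃ vx, vx = lineVx l ν μ x0 y0 := ⟨_, rfl⟩
  obtain ⟨vy, hvy⟩ : ∃ vy, vy = lineVy l ν μ x0 y0 := ⟨_, rfl⟩
  have haK : a.map (algebraMap (ZMod l) k) = 27 * H93.kH vx vy := by
    rw [ha, hvx, hvy]; exact famA_map l A0 B0 ν μ hfam x0 y0 hH' hT'
  have hbK : b.map (algebraMap (ZMod l) k) = 54 * H93.kT vx vy := by
    rw [hb, hvx, hvy]; exact famB_map l A0 B0 ν μ hfam x0 y0 hH' hT'
  have hfK : H93.kf vx vy ≠ 0 := by
    rw [hvx, hvy]; exact kf_line_ne_zero l A0 B0 ν μ hfam x0 y0 hH' hT' hf'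
  have ha0 : a.eval 0 = 27 * A0 := by rw [ha]; exact famA_eval_zero l A0 B0 ν μ hfam
  have hb0 : b.eval 0 = 54 * B0 := by rw [hb]; exact famB_eval_zero l A0 B0 ν μ hfam
  have ha1 : a.eval 1 = 27 * Rh (ZMod l) A0 B0 ν μ := by
    rw [ha]; exact famA_eval_one l A0 B0 ν μ hfam
  have hb1 : b.eval 1 = 54 * Sh (ZMod l) A0 B0 ν μ := by
    rw [hb]; exact famB_eval_one l A0 B0 ν μ hfam
  -- the torsion point over `RatFunc k`
  obtain ⟨φ, hφdef⟩ : ∃ φ : k[X] →+* RatFunc k, φ = algebraMap k[X] (RatFunc k) := ⟨_, rfl⟩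
  have hφ : Function.Injective φ := by rw [hφdef]; exact RatFunc.algebraMap_injective k
  have h2K : (2 : RatFunc k) ≠ 0 := ofNat_ratFunc_ne_zero 2 h2k
  have h3K : (3 : RatFunc k) ≠ 0 := ofNat_ratFunc_ne_zero 3 h3k
  have h5K : (5 : RatFunc k) ≠ 0 := ofNat_ratFunc_ne_zero 5 h5k
  have hW1 : (famCurve l k a b).a₁ = 0 := by simp [famCurve, polyCurve]
  have hW2 : (famCurve l k a b).a₂ = 0 := by simp [famCurve, polyCurve]
  have hW3 : (famCurve l k a b).a₃ = 0 := by simp [famCurve, polyCurve]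
  have e4 : (famCurve l k a b).a₄ = φ (a.map (algebraMap (ZMod l) k)) := by rw [hφdef]; rfl
  have e6 : (famCurve l k a b).a₆ = φ (b.map (algebraMap (ZMod l) k)) := by rw [hφdef]; rfl
  have hW4 : (famCurve l k a b).a₄ = 27 * H91.kH (φ vx) (φ vy) := by
    rw [e4, haK, map_mul, map_ofNat, H61.map_kH φ]
    rfl
  have hW6 : (famCurve l k a b).a₆ = 54 * H91.kT (φ vx) (φ vy) := by
    rw [e6, hbK, map_mul, map_ofNat, H61.map_kT φ]
    rfl
  have hfKK : H91.kf (φ vx) (φ vy) ≠ 0 := by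
    have e : H91.kf (φ vx) (φ vy) = φ (H93.kf vx vy) := (H61.map_kf φ vx vy).symm
    rw [e]
    exact (map_ne_zero_iff _ hφ).mpr hfK
  have hC : ∀ c : k, φ (C c) = algebraMap k (RatFunc k) c := by
    intro c; rw [hφdef]; exact RatFunc.algebraMap_C c
  have hrK : φ (C r0) ^ 2 = 5 := by
    rw [hC, ← map_pow, hr0, map_ofNat]
  have hpK : φ (C p0) ^ 2 = -5832 * (25 + 11 * φ (C r0)) := by
    rw [hC, hC, ← map_pow, hp0]
    simp only [map_mul, map_add, map_neg, map_ofNat]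
  obtain ⟨hns, h5P⟩ := H91.klein_torsion_point (famCurve l k a b) h2K h3K h5K hW1 hW2 hW3
    (φ vx) (φ vy) hW4 hW6 hfKK (φ (C r0)) (φ (C p0)) hrK hpK
  -- polynomial coordinates
  obtain ⟨Xp, hXp⟩ : ∃ Xp : k[X], Xp = C (5 : k)⁻¹ * H91.tX5 (C r0) (vx ^ 5) (vy ^ 5) :=
    ⟨_, rfl⟩
  obtain ⟨Yp, hYp⟩ : ∃ Yp : k[X],
      Yp = C (10 : k)⁻¹ * H91.tY10 (C r0) (C p0) (vx ^ 5) (vy ^ 5) := ⟨_, rfl⟩
  have eX : φ Xp = H91.tX1 (φ (C r0)) (φ vx) (φ vy) := by
    rw [hXp, map_mul, H91.map_tX5 φ, map_pow, map_pow, H91.tX1, hC (5 : k)⁻¹, map_inv₀,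
      map_ofNat, inv_mul_eq_div]
  have eY : φ Yp = H91.tY1 (φ (C r0)) (φ (C p0)) (φ vx) (φ vy) := by
    rw [hYp, map_mul, H91.map_tY10 φ, map_pow, map_pow, H91.tY1, hC (10 : k)⁻¹, map_inv₀,
      map_ofNat, inv_mul_eq_div]
  have hns' : (famCurve l k a b).Nonsingular (φ Xp) (φ Yp) := by rw [eX, eY]; exact hns
  have htors : ∀ h : (famCurve l k a b).Nonsingular (algebraMap k[X] (RatFunc k) Xp)
      (algebraMap k[X] (RatFunc k) Yp), 5 • Point.some _ _ h = 0 := by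
    rw [← hφdef]
    intro h
    rw [point_some_congr h eX eY hns]
    exact h5P
  have hon : Yp ^ 2 = Xp ^ 3 + a.map (algebraMap (ZMod l) k) * Xp +
      b.map (algebraMap (ZMod l) k) := by
    have hE := hns'.1
    rw [Affine.equation_iff, hW1, hW2, hW3, e4, e6] at hE
    apply hφ
    simp only [map_pow, map_add, map_mul]
    linear_combination hE
  -- the two fibres
  have hΔ₀ : (fibCurve l a b 0).Δ ≠ 0 := by
    show (⟨0, 0, 0, a.eval 0, b.eval 0⟩ : WeierstrassCurve (ZMod l)).Δ ≠ 0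
    rw [short_Δ, ha0, hb0]
    have e : -16 * (4 * (27 * A0) ^ 3 + 27 * (54 * B0) ^ 2) =
        -(2 ^ 6 * 3 ^ 9) * (A0 ^ 3 + B0 ^ 2) := by ring
    rw [e]
    exact mul_ne_zero (neg_ne_zero.mpr (mul_ne_zero (pow_ne_zero _ h2l) (pow_ne_zero _ h3l))) hAB
  have hsyz := fam_syzygy_ne_zero l A0 B0 ν μ hfam x0 y0 hH' hT' hf' h1728 hD
  have hΔ₁ : (fibCurve l a b 1).Δ ≠ 0 := by
    show (⟨0, 0, 0, a.eval 1, b.eval 1⟩ : WeierstrassCurve (ZMod l)).Δ ≠ 0
    rw [short_Δ, ha1, hb1]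
    have e : -16 * (4 * (27 * Rh (ZMod l) A0 B0 ν μ) ^ 3 + 27 * (54 * Sh (ZMod l) A0 B0 ν μ) ^ 2)
        = -(2 ^ 6 * 3 ^ 9) * (Rh (ZMod l) A0 B0 ν μ ^ 3 + Sh (ZMod l) A0 B0 ν μ ^ 2) := by ring
    rw [e]
    exact mul_ne_zero (neg_ne_zero.mpr (mul_ne_zero (pow_ne_zero _ h2l) (pow_ne_zero _ h3l))) hsyz
  have hdisc : ∀ τ : ZMod l, (fibCurve l a b τ).Δ ≠ 0 →
      4 * (a.eval τ) ^ 3 + 27 * (b.eval τ) ^ 2 ≠ 0 := by
    intro τ h h0
    apply h
    show (⟨0, 0, 0, a.eval τ, b.eval τ⟩ : WeierstrassCurve (ZMod l)).Δ = 0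
    rw [short_Δ, h0, mul_zero]
  have hCH0 := hCH (a.eval 0) (b.eval 0) (hdisc 0 hΔ₀)
  have hCH1 := hCH (a.eval 1) (b.eval 1) (hdisc 1 hΔ₁)
  have hCH0' : ∀ S : ((fibCurve l a b 0)⁄k).Point,
      (2 : ℕ) • (H23.frobPt l (fibCurve l a b 0) k (H23.frobPt l (fibCurve l a b 0) k S)
        - ((l : ℤ) + 1 - (Nat.card (H94.E0 l (a.eval 0) (b.eval 0)).Point : ℤ)) •
          H23.frobPt l (fibCurve l a b 0) k S + (l : ℤ) • S) = 0 := by
    intro S
    have h : H23.frobPt l (fibCurve l a b 0) k (H23.frobPt l (fibCurve l a b 0) k S)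
        - ((l : ℤ) + 1 - (Nat.card (H94.E0 l (a.eval 0) (b.eval 0)).Point : ℤ)) •
          H23.frobPt l (fibCurve l a b 0) k S + (l : ℤ) • S = 0 := hCH0 k S
    rw [h, smul_zero]
  have hCH1' : ∀ S : ((fibCurve l a b 1)⁄k).Point,
      (2 : ℕ) • (H23.frobPt l (fibCurve l a b 1) k (H23.frobPt l (fibCurve l a b 1) k S)
        - ((l : ℤ) + 1 - (Nat.card (H94.E0 l (a.eval 1) (b.eval 1)).Point : ℤ)) •
          H23.frobPt l (fibCurve l a b 1) k S + (l : ℤ) • S) = 0 := by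
    intro S
    have h : H23.frobPt l (fibCurve l a b 1) k (H23.frobPt l (fibCurve l a b 1) k S)
        - ((l : ℤ) + 1 - (Nat.card (H94.E0 l (a.eval 1) (b.eval 1)).Point : ℤ)) •
          H23.frobPt l (fibCurve l a b 1) k S + (l : ℤ) • S = 0 := hCH1 k S
    rw [h, smul_zero]
  have key := rigidity l (k := k) 5 (by norm_num) (by norm_num) (by omega) a b Xp Yp hon htors
    0 1 hΔ₀ hΔ₁
    (H23.frobPt l (fibCurve l a b 0) k) (fun x y h => ⟨_, H23.frobPt_some l _ k h⟩)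
    (H23.frobPt l (fibCurve l a b 1) k) (fun x y h => ⟨_, H23.frobPt_some l _ k h⟩)
    ((l : ℤ) + 1 - (Nat.card (H94.E0 l (a.eval 0) (b.eval 0)).Point : ℤ))
    ((l : ℤ) + 1 - (Nat.card (H94.E0 l (a.eval 1) (b.eval 1)).Point : ℤ)) (l : ℤ)
    hCH0' hCH1'
  rw [ha0, hb0, ha1, hb1] at key
  have e : ((Nat.card (⟨0, 0, 0, 27 * Rh (ZMod l) A0 B0 ν μ, 54 * Sh (ZMod l) A0 B0 ν μ⟩ :
          WeierstrassCurve (ZMod l)).toAffine.Point : ℤ)
        - (Nat.card (⟨0, 0, 0, 27 * A0, 54 * B0⟩ : WeierstrassCurve (ZMod l)).toAffine.Point : ℤ))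
      = -(((l : ℤ) + 1 - (Nat.card (H94.E0 l (27 * Rh (ZMod l) A0 B0 ν μ)
            (54 * Sh (ZMod l) A0 B0 ν μ)).Point : ℤ))
          - ((l : ℤ) + 1 - (Nat.card (H94.E0 l (27 * A0) (54 * B0)).Point : ℤ))) := by
    simp only [H94.E0]
    ring
  rw [e]
  exact dvd_neg.mpr key

/-- **Theorem A' for a Klein family** (package E5): Cayley–Hamilton for Frobenius implies the
congruence of point counts modulo `5` along the family, in the shape `H3.ThmA`. -/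
theorem thmA_of_isKleinFamily (hfam : H3.IsKleinFamily Rh Sh Dh)
    (hCH : ∀ (l : ℕ) [Fact l.Prime], 7 ≤ l → ∀ A B : ZMod l, 4 * A ^ 3 + 27 * B ^ 2 ≠ 0 →
      H94.CHStatement l A B) :
    H3.ThmA Rh Sh Dh := by
  intro l _ hl A0 B0 ν μ hAB hD
  exact thmA_aux hfam l hl (AlgebraicClosure (ZMod l)) (hCH l hl) A0 B0 ν μ hAB hD

end Main

end Fermat.Agent.S52.H98
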