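import Fermat.Agent.S52.H98.ThmA
import Fermat.Agent.S52.H93.KleinFamily
import Fermat.Agent.S52.H94.CHTransfer

/-!
# S52, package E5: Theorem A' for the Klein family, unconditionally

`thmA_klein : H3.ThmA H93.famRh H93.famSh H93.famDh` — the congruence modulo `5` of the point
counts along the explicit Klein family (landed `H93.isKleinFamily`), from
`H98.thmA_of_isKleinFamily` and the landed Cayley–Hamilton theorem `H94.cayley_hamilton`.
-/

set_option autoImplicit false

namespace Fermat.Agent.S52.H98

/-- Cayley–Hamilton for Frobenius on every short Weierstrass curve over `𝔽_ℓ`, `ℓ ≥ 7`, in the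
shape of the hypothesis of `thmA_of_isKleinFamily`. -/
theorem chStatement_of_seven_le (l : ℕ) [Fact l.Prime] (hl : 7 ≤ l) (A B : ZMod l)
    (hΔ : 4 * A ^ 3 + 27 * B ^ 2 ≠ 0) : H94.CHStatement l A B :=
  H94.cayley_hamilton l A B (by omega) hΔ

/-- Theorem A' holds for every Klein family (unconditional form of `thmA_of_isKleinFamily`). -/
theorem thmA_of_isKleinFamily' {Rh Sh Dh : ∀ (R : Type) [CommRing R], R → R → R → R → R}
    (hfam : H3.IsKleinFamily Rh Sh Dh) : H3.ThmA Rh Sh Dh :=
  thmA_of_isKleinFamily hfam (fun l _ hl A B hΔ => chStatement_of_seven_le l hl A B hΔ)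

/-- **Theorem A'** for the explicit Klein family of `H93/KleinFamily.lean`. -/
theorem thmA_klein : H3.ThmA H93.famRh H93.famSh H93.famDh :=
  thmA_of_isKleinFamily' H93.isKleinFamily

end Fermat.Agent.S52.H98
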